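import Fermat.Agent.Ribet.Spec

/-!
# Row RIBET: L0 ⇐ L1 glue (sorry-free)

* `S44_of_S39`   : S44 ⇐ S39 + Frey model at `p` + irreducibility transport + model transport.
* `S43_of`       : S43 ⇐ Mazur principle + auxiliary prime + level raising (S41) + old/new
                   dichotomy + Ribet pivot + S05 + bad-prime lemma.
-/

set_option autoImplicit false

open WeierstrassCurve WeierstrassCurve.Affine WeierstrassCurve.Affine.Point
open CuspForm ModularFormClass UpperHalfPlane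

namespace Fermat.Agent.Ribet

open Spec

theorem not_dvd_div_of_sq_not_dvd {N q : ℕ} (hq : q.Prime) (hqN : q ∣ N)
    (hsq : ¬ q ^ 2 ∣ N) : ¬ q ∣ N / q := by
  intro h
  apply hsq
  obtain ⟨k, rfl⟩ := hqN
  rw [Nat.mul_div_cancel_left k hq.pos] at h
  obtain ⟨m, rfl⟩ := h
  exact ⟨m, by ring⟩

/-- GLUE: S44 ⇐ S39 + (G1a) + (G1b) + (G2). -/
theorem S44_of_S39 (h39 : S39Statement) (hFM : FreyModelAtPStatement)
    (hIrr : IrrTransportStatement) (hMT : ModelTransportStatement) : S44Statement := by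
  intro P N hcond hpN hirr hmod
  obtain ⟨W, hW, hΔ, hsemi, hpeu⟩ := hFM P (hcond.p_dvd_abc hpN)
  have hres := hMT P N hcond.pos hmod W hW
  have hp2 : P.p ≠ 2 := by have := P.hp5; omega
  have hsq : ¬ P.p ^ 2 ∣ N := hcond.sq_not_dvd P.pp
  obtain ⟨f, 𝔪, hf, hmax, hp, hc⟩ :=
    h39 W hΔ P.pp hp2 hsemi (hIrr _ W P.p hW hirr) hpeu hcond.pos hpN hsq hres
  exact ⟨N / P.p, Nat.div_dvd_of_dvd hpN, not_dvd_div_of_sq_not_dvd P.pp hpN hsq,
    f, W, 𝔪, hf, hW, hmax, hp, hc⟩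

/-- The level-raising congruence at an auxiliary prime. -/
theorem levelRaising_hyp_of_aux {P : FreyPackage} {N q' : ℕ}
    {f : CuspForm (CongruenceSubgroup.Gamma0 N) 2} {W : WeierstrassCurve ℤ}
    {𝔪 : Ideal (integralClosure ℤ ℂ)} (hwit : P.IsCongruentWitness N f W 𝔪)
    (hq' : q'.Prime) (hq'N : ¬ q' ∣ N) (hq'p : q' ≠ P.p) (hgood : W.IsGoodPrimeFor q')
    (h1 : P.p ∣ q' + 1) (hap : (P.p : ℤ) ∣ W.apOfModel q') :
    ∃ a : integralClosure ℤ ℂ, (a : ℂ) = ModularFormClass.qCoeff f q' ∧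
      a ^ 2 - ((q' : integralClosure ℤ ℂ) + 1) ^ 2 ∈ 𝔪 := by
  obtain ⟨-, -, -, hp, hc⟩ := hwit
  obtain ⟨a, ha, ham⟩ := hc q' hq' hgood hq'N hq'p
  refine ⟨a, ha, ?_⟩
  have hW0 : ((W.apOfModel q' : ℤ) : integralClosure ℤ ℂ) ∈ 𝔪 := by
    obtain ⟨k, hk⟩ := hap
    rw [hk]
    push_cast
    exact 𝔪.mul_mem_right _ hp
  have hq0 : ((q' : integralClosure ℤ ℂ) + 1) ∈ 𝔪 := by
    obtain ⟨k, hk⟩ := h1
    have : ((q' : integralClosure ℤ ℂ) + 1) = ((q' + 1 : ℕ) : integralClosure ℤ ℂ) := by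
      push_cast; rfl
    rw [this, hk]
    push_cast
    exact 𝔪.mul_mem_right _ hp
  have ha0 : a ∈ 𝔪 := by
    have := 𝔪.add_mem ham hW0
    simpa using this
  have e : a ^ 2 - ((q' : integralClosure ℤ ℂ) + 1) ^ 2 =
      a * a - ((q' : integralClosure ℤ ℂ) + 1) * ((q' : integralClosure ℤ ℂ) + 1) := by ring
  rw [e]
  exact 𝔪.sub_mem (𝔪.mul_mem_left _ ha0) (𝔪.mul_mem_left _ hq0)

/-- GLUE: S43 ⇐ L1 pieces. -/
theorem S43_of (hMP : MazurPrincipleStatement) (hAux : AuxPrimeStatement)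
    (hLR : LevelRaisingStatement) (hON : OldNewStatement) (hPiv : RibetPivotStatement)
    (h05 : S05Statement) (hBad : FreyBadPrimeStatement) : S43Statement := by
  intro P N q hcond hq hq2 hqp hqN hirr hmod hunr
  have hsq : ¬ q ^ 2 ∣ N := hcond.sq_not_dvd hq
  refine ⟨N / q, Nat.div_dvd_of_dvd hqN, not_dvd_div_of_sq_not_dvd hq hqN hsq, ?_⟩
  by_cases h1 : P.p ∣ q - 1
  · -- hard case `q ≡ 1 mod p`: auxiliary prime, level raising, pivot, Mazur at `q'`
    obtain ⟨f, W, 𝔪, hwit⟩ := hmod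
    have hwit' : P.IsCongruentWitness N f W 𝔪 := hwit
    obtain ⟨q', hq', hq'N, hq'p, hq'2, hgood, hq'1, hap⟩ := hAux P N W hcond.pos hwit.2.1 hirr
    have hqq' : q ≠ q' := fun h => hq'N (h ▸ hqN)
    obtain ⟨g, W', 𝔪', hgwit, hnew'⟩ :=
      hLR P N q' f W 𝔪 hcond.pos hq' hq'N hq'p hirr hwit'
        (levelRaising_hyp_of_aux hwit' hq' hq'N hq'p hgood hq'1 hap)
    have hLpos : 0 < N * q' := Nat.mul_pos hcond.pos hq'.pos
    have hqL : q ∣ N * q' := hqN.mul_right q'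
    have hcop : Nat.Coprime q q' := (Nat.coprime_primes hq hq').2 hqq'
    have hq'L : q' ∣ N * q' := Dvd.intro_left N rfl
    have hsqL : ¬ q ^ 2 ∣ N * q' := by
      intro h
      exact hsq ((Nat.Coprime.pow_left 2 hcop).dvd_of_dvd_mul_right h)
    have hsq'L : ¬ q' ^ 2 ∣ N * q' := by
      intro h
      rw [pow_two] at h
      exact hq'N (Nat.dvd_of_mul_dvd_mul_right hq'.pos h)
    have hmodL : P.ModularRepOfLevel (N * q' / q) := by
      rcases hON (N * q') q hLpos hq hqL hsqL g hgwit.1 with hnew | ⟨g', hg', hcoef⟩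
      · exact hPiv P hLpos hq hq' hqq' hqp hq'p hqL hsqL hq'L hsq'L hirr hunr g W' 𝔪'
          hgwit hnew hnew'
      · obtain ⟨-, hW', hmax', hp', hc'⟩ := hgwit
        refine ⟨g', W', 𝔪', hg', hW', hmax', hp', ?_⟩
        intro ℓ hℓ hgoodℓ hℓL hℓp
        by_cases hℓNq : ℓ ∣ N * q'
        · exfalso
          -- then `ℓ = q`, but `W'` is bad at `q`
          have hℓq : ℓ = q := by
            by_contra hne
            apply hℓL
            obtain ⟨k, hk⟩ := hqL
            rw [hk, Nat.mul_div_cancel_left k hq.pos]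
            have hcop' : Nat.Coprime ℓ q := (Nat.coprime_primes hℓ hq).2 hne
            rw [hk] at hℓNq
            exact hcop'.dvd_of_dvd_mul_left hℓNq
          subst hℓq
          exact hBad P W' ℓ hW' hℓ hq2 (hcond.support ℓ hℓ hqN) hgoodℓ
        · obtain ⟨a, ha, ham⟩ := hc' ℓ hℓ hgoodℓ hℓNq hℓp
          exact ⟨a, by rw [ha, hcoef ℓ hℓ hℓNq], ham⟩
    -- now remove `q'` by Mazur's principle (`q' ≡ -1 mod p`, `p ≥ 5`)
    obtain ⟨k, rfl⟩ := hqN
    have hkpos : 0 < k := Nat.pos_of_mul_pos_left hcond.pos |> fun h => by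
      rcases Nat.eq_zero_or_pos k with h0 | h0
      · subst h0; simp at hcond; exact absurd hcond.pos (by simp)
      · exact h0
    have e1 : q * k * q' / q = k * q' := by
      rw [mul_assoc, Nat.mul_div_cancel_left _ hq.pos]
    have e2 : q * k / q = k := Nat.mul_div_cancel_left k hq.pos
    rw [e1] at hmodL
    rw [e2]
    have hq'k : ¬ q' ∣ k := fun h => hq'N (h.mul_left q)
    have hne1 : ¬ P.p ∣ q' - 1 := by
      intro h
      have h5 := P.hp5
      have hq'2' : 2 ≤ q' := hq'.two_le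
      have : P.p ∣ (q' + 1) - (q' - 1) := Nat.dvd_sub hq'1 h
      have e : (q' + 1) - (q' - 1) = 2 := by omega
      rw [e] at this
      have := Nat.le_of_dvd (by norm_num) this
      omega
    have h := hMP P (L := k * q') (q := q') (Nat.mul_pos hkpos hq'.pos) hq' hq'p
      (Dvd.intro_left k rfl)
      (by
        intro h
        rw [pow_two] at h
        exact hq'k (Nat.dvd_of_mul_dvd_mul_right hq'.pos h))
      hirr hmodL (h05 P hq' hq'2 hq'p) hne1
    rwa [Nat.mul_div_cancel k hq'.pos] at h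
  · exact hMP P hcond.pos hq hqp hqN hsq hirr hmod hunr h1

end Fermat.Agent.Ribet
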