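import Fermat.Agent.Ribet.Spec

/-!
# Row RIBET: interface statements, second instalment (board v2, helper943)

`Spec.lean` is frozen on main.  This file adds the corrected / weakened forms agreed with the
rows that deliver them.  All definitions are `Prop`s; no proofs.

* `EigenformOfOccursAwayStatement` (R3S): R3 only for `S ⊇ {primes dividing M·p}` (the Kummer-Hecke
  dictionary of the S29 tower exists only away from `M·p`).
* `TraceFormulaFreyStatement` (TF-Frey): the trace formula for the Frey curve and `n = p` only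
  (the general form needs `det = cyclotomic` for all curves).
* `AtPOccursStatement`, `AtQOccursStatement`: the two Mazur walls in SUPPORT form (no embedding
  of the abelian part is asked for).  `AtPOccursStatement` is verbatim the statement
  `Fermat.Agent.Ribet.H884.AtPOccursStatement`.
-/

set_option autoImplicit false

open WeierstrassCurve WeierstrassCurve.Affine WeierstrassCurve.Affine.Point
open CuspForm ModularFormClass UpperHalfPlane ModularCurve

namespace Fermat.Agent.Ribet.Spec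

/-- (R3S) [row S29: architect helper201]  An eigensystem occurring in `J₀(M)[p]` away from a
finite set `S` **containing all primes dividing `M·p`** is the reduction of a normalised
eigenform of level `M` (congruence for the primes outside `S`). -/
def EigenformOfOccursAwayStatement : Prop :=
  ∀ (M p : ℕ) [NeZero M], p.Prime → ∀ (S : Finset ℕ) (a : ℕ → ℤ),
    (∀ ℓ : ℕ, ℓ.Prime → ℓ ∣ M * p → ℓ ∈ S) → OccursIn M p S a →
    ∃ (g : CuspForm (CongruenceSubgroup.Gamma0 M) 2) (𝔪 : Ideal (integralClosure ℤ ℂ)),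
      g.IsNormalizedEigenform ∧ 𝔪.IsMaximal ∧ (p : integralClosure ℤ ℂ) ∈ 𝔪 ∧
      ∀ ℓ : ℕ, ℓ.Prime → ℓ ∉ S →
        ∃ b : integralClosure ℤ ℂ, (b : ℂ) = qCoeff g ℓ ∧
          b - ((a ℓ : ℤ) : integralClosure ℤ ℂ) ∈ 𝔪

/-- (TF-Frey)  Trace formula for the Frey curve at `n = p`. -/
def TraceFormulaFreyStatement : Prop :=
  ∀ (P : FreyPackage) (W : WeierstrassCurve ℤ), W.IsIntegralModelOf P.freyCurve →
    ∀ (ℓ : ℕ), ℓ.Prime → ℓ ≠ P.p → W.IsGoodPrimeFor ℓ →
    ∀ A : ValuationSubring (AlgebraicClosure ℚ), A.LiesOverPrime ℓ →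
    ∀ τ : GQ, A.IsFrobeniusAt τ ℓ →
      galoisTrace (S := ℚ) (K := AlgebraicClosure ℚ) P.freyCurve P.p τ
        = ((W.apOfModel ℓ : ℤ) : ZMod P.p)

/-- (WALL-p)  Mazur-Ribet at `p`, support form: `p ‖ pM'`, `p ∣ abc`, `E[p]` irreducible and
embedded Galois- and Hecke-equivariantly in `J₀(pM')`; then its eigensystem occurs in
`J₀(M')[p]` away from a finite set. -/
def AtPOccursStatement : Prop :=
  ∀ (P : FreyPackage) (M' : ℕ) [NeZero M'] [NeZero (P.p * M')], ¬ P.p ∣ M' →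
    (P.p : ℤ) ∣ P.a * P.b * P.c →
    GaloisRepIsIrreducible (K := AlgebraicClosure ℚ) ℚ P.freyCurve P.p →
    ∀ (S : Finset ℕ) (a : ℕ → ℤ), FreyEmbedsIn P (P.p * M') S a →
      ∃ S' : Finset ℕ, S ⊆ S' ∧ OccursIn M' P.p S' a

/-- (WALL-q)  Mazur's principle at `q ≠ p`, support form: `q ‖ qM'`, `E[p]` irreducible,
unramified at `q`, `q ≢ 1 mod p`, embedded in `J₀(qM')`; then its eigensystem occurs in
`J₀(M')[p]` away from a finite set. -/
def AtQOccursStatement : Prop :=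
  ∀ (P : FreyPackage) (M' q : ℕ) [NeZero M'] [NeZero (q * M')], q.Prime → q ≠ P.p →
    ¬ q ∣ M' →
    GaloisRepIsIrreducible (K := AlgebraicClosure ℚ) ℚ P.freyCurve P.p →
    P.GaloisRepUnramifiedAt q → ¬ P.p ∣ q - 1 →
    ∀ (S : Finset ℕ) (a : ℕ → ℤ), FreyEmbedsIn P (q * M') S a →
      ∃ S' : Finset ℕ, S ⊆ S' ∧ OccursIn M' P.p S' a

/-- `OccursIn` is monotone in the excluded set. -/
theorem OccursIn.mono {N p : ℕ} [NeZero N] {S S' : Finset ℕ} {a : ℕ → ℤ} (h : S ⊆ S')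
    (hocc : OccursIn N p S a) : OccursIn N p S' a := by
  obtain ⟨x, hx, hp, hT⟩ := hocc
  exact ⟨x, hx, hp, fun ℓ hℓ => hT ℓ (fun hS => hℓ (h hS))⟩

/-- `FreyEmbedsIn` is monotone in the excluded set. -/
theorem FreyEmbedsIn.mono {P : FreyPackage} {N : ℕ} [NeZero N] {S S' : Finset ℕ} {a : ℕ → ℤ}
    (h : S ⊆ S') (hemb : FreyEmbedsIn P N S a) : FreyEmbedsIn P N S' a := by
  obtain ⟨ι, hinj, hgal, hT⟩ := hemb
  exact ⟨ι, hinj, hgal, fun ℓ hℓ => hT ℓ (fun hS => hℓ (h hS))⟩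

/-- R3 (all `S`) implies R3S. -/
theorem eigenformOfOccursAway_of (h : EigenformOfOccursStatement) :
    EigenformOfOccursAwayStatement :=
  fun M p _ hp S a _ hocc => h M p hp S a hocc

/-- Use of R3S with an arbitrary `S`: enlarge `S` by the primes dividing `M·p`. -/
theorem exists_eigenform_of_occursIn (h : EigenformOfOccursAwayStatement) {M p : ℕ} [NeZero M]
    (hp : p.Prime) {S : Finset ℕ} {a : ℕ → ℤ} (hocc : OccursIn M p S a) :
    ∃ (g : CuspForm (CongruenceSubgroup.Gamma0 M) 2) (𝔪 : Ideal (integralClosure ℤ ℂ)),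
      g.IsNormalizedEigenform ∧ 𝔪.IsMaximal ∧ (p : integralClosure ℤ ℂ) ∈ 𝔪 ∧
      ∀ ℓ : ℕ, ℓ.Prime → ℓ ∉ S ∪ (M * p).primeFactors →
        ∃ b : integralClosure ℤ ℂ, (b : ℂ) = qCoeff g ℓ ∧
          b - ((a ℓ : ℤ) : integralClosure ℤ ℂ) ∈ 𝔪 := by
  refine h M p hp (S ∪ (M * p).primeFactors) a ?_ (hocc.mono Finset.subset_union_left)
  intro ℓ hℓ hdvd
  apply Finset.mem_union_right
  rw [Nat.mem_primeFactors]
  exact ⟨hℓ, hdvd, Nat.mul_ne_zero (NeZero.ne M) hp.ne_zero⟩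

/-- Row 38 from the support-form wall: `S44 ⇐ BLR + WALL-p + R3S + R3'`. -/
theorem S44_of_walls (hE : EmbedStatement) (hWall : AtPOccursStatement)
    (hR3 : EigenformOfOccursAwayStatement) (hR3' : AlmostAllToWitnessStatement) :
    S44Statement := by
  intro P N hcond hpN hirr hmod
  have hsq : ¬ P.p ^ 2 ∣ N := hcond.sq_not_dvd P.pp
  have hpabc := hcond.p_dvd_abc hpN
  have hNpos := hcond.pos
  obtain ⟨M', rfl⟩ := hpN
  have hM'pos : 0 < M' := by
    rcases Nat.eq_zero_or_pos M' with h0 | h0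
    · subst h0; simp at hNpos
    · exact h0
  have hpM' : ¬ P.p ∣ M' := by
    rintro ⟨k, rfl⟩
    exact hsq ⟨k, by ring⟩
  haveI : NeZero M' := ⟨hM'pos.ne'⟩
  haveI : NeZero (P.p * M') := ⟨hNpos.ne'⟩
  obtain ⟨f, W, 𝔪, hwit⟩ := hmod
  have hwit' : P.IsCongruentWitness (P.p * M') f W 𝔪 := hwit
  obtain ⟨S, hemb⟩ := hE P (P.p * M') hirr f W 𝔪 hwit'
  obtain ⟨S', -, hocc⟩ := hWall P M' hpM' hpabc hirr S _ hemb
  obtain ⟨g, 𝔪', hg, hmax, hp, hc⟩ := exists_eigenform_of_occursIn hR3 P.pp hocc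
  exact ⟨M', Dvd.intro_left _ rfl, hpM', g, W, 𝔪',
    hR3' P M' hM'pos g W 𝔪' _ hg hwit.2.1 hmax hp hc⟩

/-- Mazur's principle (L1) from the support-form wall at `q`:
`MPq ⇐ BLR + WALL-q + R3S + R3'`. -/
theorem mazurPrinciple_of_walls (hE : EmbedStatement) (hWall : AtQOccursStatement)
    (hR3 : EigenformOfOccursAwayStatement) (hR3' : AlmostAllToWitnessStatement) :
    MazurPrincipleStatement := by
  intro P L q hLpos hq hqp hqL hsq hirr hmod hunr hq1
  obtain ⟨M', rfl⟩ := hqL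
  have hM'pos : 0 < M' := by
    rcases Nat.eq_zero_or_pos M' with h0 | h0
    · subst h0; simp at hLpos
    · exact h0
  rw [Nat.mul_div_cancel_left M' hq.pos]
  have hqM' : ¬ q ∣ M' := by
    rintro ⟨k, rfl⟩
    exact hsq ⟨k, by ring⟩
  haveI : NeZero M' := ⟨hM'pos.ne'⟩
  haveI : NeZero (q * M') := ⟨hLpos.ne'⟩
  obtain ⟨f, W, 𝔪, hwit⟩ := hmod
  have hwit' : P.IsCongruentWitness (q * M') f W 𝔪 := hwit
  obtain ⟨S, hemb⟩ := hE P (q * M') hirr f W 𝔪 hwit'
  obtain ⟨S', -, hocc⟩ := hWall P M' q hq hqp hqM' hirr hunr hq1 S _ hemb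
  obtain ⟨g, 𝔪', hg, hmax, hp, hc⟩ := exists_eigenform_of_occursIn hR3 P.pp hocc
  exact ⟨g, W, 𝔪', hR3' P M' hM'pos g W 𝔪' _ hg hwit.2.1 hmax hp hc⟩

end Fermat.Agent.Ribet.Spec
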