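import Fermat.Agent.Ribet.Spec2
import Fermat.Prelude.Def_GaloisRep_Residual

/-!
# Row RIBET, TARGET S40 (good reduction at `p`): interface statements in `W`-form (helper943)

Frozen S40: `W : WeierstrassCurve ℤ`, `Δ ≠ 0`, `p` odd, `W` good at `p`, `W[p]` irreducible,
`p ‖ M`, `W` residually modular of level `M`  ⊢  `W` residually modular of level `M / p`.

`S40_of_walls : BLR-W → WALL-p (good) → R3S → R3'-W → S40Statement`   (proved below).

All curve-dependent interfaces are stated for an arbitrary integral Weierstrass curve `W`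
(`E = W.map ℤ→ℚ`); the Frey forms of `Spec.lean` are the special case `W = P.freyCurveInt`.
-/

set_option autoImplicit false

open WeierstrassCurve WeierstrassCurve.Affine WeierstrassCurve.Affine.Point
open CuspForm ModularFormClass UpperHalfPlane ModularCurve

namespace Fermat.Agent.Ribet.Spec

/-- `E[p]` for `E = W ⊗ ℚ`. -/
abbrev WTorsion (W : WeierstrassCurve ℤ) (p : ℕ) : Type :=
  Submodule.torsionBy ℤ ((W.map (Int.castRingHom ℚ))⁄(AlgebraicClosure ℚ)).Point p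

/-- The congruence data of `W.IsResiduallyModularOfLevel p N` for a fixed form and ideal. -/
def IsWitnessW (W : WeierstrassCurve ℤ) (p N : ℕ)
    (f : CuspForm (CongruenceSubgroup.Gamma0 N) 2) (𝔪 : Ideal (integralClosure ℤ ℂ)) : Prop :=
  f.IsNormalizedEigenform ∧ 𝔪.IsMaximal ∧ (p : integralClosure ℤ ℂ) ∈ 𝔪 ∧
    ∀ ℓ : ℕ, ℓ.Prime → W.IsGoodPrimeFor ℓ → ¬ ℓ ∣ N → ℓ ≠ p →
      ∃ a : integralClosure ℤ ℂ, (a : ℂ) = ModularFormClass.qCoeff f ℓ ∧
        a - ((W.apOfModel ℓ : ℤ) : integralClosure ℤ ℂ) ∈ 𝔪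

theorem isResiduallyModularOfLevel_iff_exists_witness (W : WeierstrassCurve ℤ) (p N : ℕ) :
    W.IsResiduallyModularOfLevel p N ↔ ∃ f 𝔪, IsWitnessW W p N f 𝔪 :=
  Iff.rfl

/-- A Galois- and Hecke-equivariant embedding of `W[p]` into `J₀(N)`, with `T_ℓ` acting through
`a_ℓ(W)` away from `S`. -/
def WEmbedsIn (W : WeierstrassCurve ℤ) (p N : ℕ) [NeZero N] (S : Finset ℕ) : Prop :=
  ∃ ι : WTorsion W p →+ JZero N, Function.Injective ι ∧
    (∀ (σ : GQ) (x : WTorsion W p), ι (σ • x) = σ • ι x) ∧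
    ∀ ℓ : Nat.Primes, (ℓ : ℕ) ∉ S → ∀ x : WTorsion W p,
      heckeOperatorBar N ℓ (ι x) = W.apOfModel ℓ • ι x

/-- (BLR-W) [row S29, architect helper709]  Boston-Lenstra-Ribet for an arbitrary integral
curve: a congruence witness of level `N` for an irreducible `W[p]`, `p` odd, gives an
equivariant embedding `W[p] ↪ J₀(N)[p]`. -/
def EmbedWStatement : Prop :=
  ∀ (W : WeierstrassCurve ℤ) (p N : ℕ) [NeZero N], W.Δ ≠ 0 → p.Prime → p ≠ 2 →
    W.ModRepIsIrreducible p →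
    ∀ (f : CuspForm (CongruenceSubgroup.Gamma0 N) 2) (𝔪 : Ideal (integralClosure ℤ ℂ)),
      IsWitnessW W p N f 𝔪 → ∃ S : Finset ℕ, WEmbedsIn W p N S

/-- (WALL-p, good reduction)  Mazur-Ribet at `p` in support form: `W` good at `p`, `W[p]`
irreducible and embedded in `J₀(pM')`; then the eigensystem `a_ℓ(W)` occurs in `J₀(M')[p]`. -/
def AtPOccursGoodStatement : Prop :=
  ∀ (W : WeierstrassCurve ℤ) (p M' : ℕ) [NeZero M'] [NeZero (p * M')], W.Δ ≠ 0 → p.Prime →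
    p ≠ 2 → ¬ p ∣ M' → W.IsGoodPrimeFor p → W.ModRepIsIrreducible p →
    ∀ S : Finset ℕ, WEmbedsIn W p (p * M') S →
      ∃ S' : Finset ℕ, S ⊆ S' ∧ OccursIn M' p S' (fun ℓ => W.apOfModel ℓ)

/-- (R3'-W) [frozen S29 + Chebotarev + trace formula]  For an irreducible `W[p]`, a normalised
eigenform congruent to `W` outside a finite set is congruent at every good prime `ℓ ∤ M·p`. -/
def AlmostAllToWitnessWStatement : Prop :=
  ∀ (W : WeierstrassCurve ℤ) (p M : ℕ), W.Δ ≠ 0 → p.Prime → p ≠ 2 → 0 < M →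
    W.ModRepIsIrreducible p →
    ∀ (g : CuspForm (CongruenceSubgroup.Gamma0 M) 2) (𝔪 : Ideal (integralClosure ℤ ℂ))
      (S : Finset ℕ),
      g.IsNormalizedEigenform → 𝔪.IsMaximal → (p : integralClosure ℤ ℂ) ∈ 𝔪 →
      (∀ ℓ : ℕ, ℓ.Prime → ℓ ∉ S →
        ∃ b : integralClosure ℤ ℂ, (b : ℂ) = qCoeff g ℓ ∧
          b - ((W.apOfModel ℓ : ℤ) : integralClosure ℤ ℂ) ∈ 𝔪) →
      IsWitnessW W p M g 𝔪

/-- Frozen S29 as a Prop (consumed by R3'-W). -/
def S29Statement : Prop :=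
  ∀ {N : ℕ} {g : CuspForm (CongruenceSubgroup.Gamma0 N) 2}, g.IsNormalizedEigenform →
    ∀ {p : ℕ}, p.Prime → ∀ {k : Type} [Field k] [CharP k p]
    (φ : integralClosure ℤ ℂ →+* k),
    ∃ ρ : ResidualGaloisRep k, ρ.IsAttachedTo g φ ∧
      ∀ ℓ : ℕ, ℓ.Prime → ¬ ℓ ∣ N * p → ρ.IsUnramifiedAt ℓ

/-- (TF-W)  Trace formula for an integral curve with irreducible `W[p]`. -/
def TraceFormulaWStatement : Prop :=
  ∀ (W : WeierstrassCurve ℤ) (p : ℕ), W.Δ ≠ 0 → p.Prime → p ≠ 2 → W.ModRepIsIrreducible p →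
    ∀ (ℓ : ℕ), ℓ.Prime → ℓ ≠ p → W.IsGoodPrimeFor ℓ →
    ∀ A : ValuationSubring (AlgebraicClosure ℚ), A.LiesOverPrime ℓ →
    ∀ τ : GQ, A.IsFrobeniusAt τ ℓ →
      galoisTrace (S := ℚ) (K := AlgebraicClosure ℚ) (W.map (Int.castRingHom ℚ)) p τ
        = ((W.apOfModel ℓ : ℤ) : ZMod p)

/-- **TARGET S40 from its four inputs.** -/
theorem S40_of_walls (hE : EmbedWStatement) (hWall : AtPOccursGoodStatement)
    (hR3 : EigenformOfOccursAwayStatement) (hR3' : AlmostAllToWitnessWStatement) :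
    S40Statement := by
  intro W hΔ p hp hp2 hgood hirr M hM hpM hp2M hmod
  obtain ⟨M', rfl⟩ := hpM
  have hM'pos : 0 < M' := by
    rcases Nat.eq_zero_or_pos M' with h0 | h0
    · subst h0; simp at hM
    · exact h0
  rw [Nat.mul_div_cancel_left M' hp.pos]
  have hpM' : ¬ p ∣ M' := by
    rintro ⟨k, rfl⟩
    exact hp2M ⟨k, by ring⟩
  haveI : NeZero M' := ⟨hM'pos.ne'⟩
  haveI : NeZero (p * M') := ⟨hM.ne'⟩
  obtain ⟨f, 𝔪, hwit⟩ := hmod
  obtain ⟨S, hemb⟩ := hE W p (p * M') hΔ hp hp2 hirr f 𝔪 hwit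
  obtain ⟨S', -, hocc⟩ := hWall W p M' hΔ hp hp2 hpM' hgood hirr S hemb
  obtain ⟨g, 𝔪', hg, hmax, hpm, hc⟩ := exists_eigenform_of_occursIn hR3 hp hocc
  exact ⟨g, 𝔪', hR3' W p M' hΔ hp hp2 hM'pos hirr g 𝔪' _ hg hmax hpm hc⟩

end Fermat.Agent.Ribet.Spec
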